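import Fermat.Agent.H56.SS.NormRedAbs
import Fermat.Agent.H55.SS.KTModel
import Fermat.Agent.H32.SS.GenCore
import Fermat.Agent.H73.KLPlaceDescCore

/-!
# P-SS / S35 block (KT), row 972 KT-C2 NORMRED2 (helper56)

`modelNormRed2 (M q) (hq : q.Prime) (hqM : ¬ q ∣ M) :
    Fermat.Agent.H55.SS.ModelNormRed2Statement M q`  (unconditional).

For `z` a unit of the two Gauss valuations `V_∞`, `V_0 = W⁻¹ V_∞` of level `M q` and `y ∈ V'`:
* (Ra) `z ≡ β y` modulo `𝔪_{V_0}`  ⟹  `α (N_α z) ≡ z · α (φ y)` modulo `𝔪_{V_∞}`;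
* (Rb) `z ≡ α y` modulo `𝔪_{V_∞}`  ⟹  `β (N_β z) ≡ z · β (φ y)` modulo `𝔪_{V_0}`.

Proof: the norm is the product over the `q + 1` embeddings `τ_∞ = (t ↦ t^q)`,
`τ_b = (t ↦ ζ^b t) ∘ W` into `ℚ̄((t))` (`Fermat.Agent.H56.SS.nr_norm_prod`); modulo a Chevalley
extension `A` of `A₀` to `ℚ̄` the root of unity `ζ` is `1`, so the product of the twists reduces
to the `q`-th power, which is the coefficientwise Frobenius composed with `t ↦ t^q`
(`Fermat.Agent.H56.SS.nr_core`).  (Rb) follows from (Ra) by the symmetry `W`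
(`Fermat.Agent.H56.SS.nr_core_swap`).
-/

set_option autoImplicit false
set_option linter.style.haveILetI false
set_option linter.unusedSectionVars false

noncomputable section

namespace Fermat.Agent.H56.SS

open ModularCurve AlgebraicCurve
open Fermat.Agent.H22.KL Fermat.Agent.H82.SS Fermat.Agent.H55.SS Fermat.Agent.H11.SS2

section Aux

variable {K₁ : Type} [Field K₁] [Algebra ℚ K₁]
  {A₀ : Type} [CommRing A₀] [IsDomain A₀] [IsDiscreteValuationRing A₀]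
  [Algebra A₀ K₁] [IsFractionRing A₀ K₁]

/-- The inverse of the image of a nonunit of `A₀` is not integral. -/
theorem nr_inv_not_mem_rangeVal {d : A₀} (hd : ¬ IsUnit d) (hd0 : algebraMap A₀ K₁ d ≠ 0) :
    (algebraMap A₀ K₁ d)⁻¹ ∉ rangeVal A₀ K₁ := by
  rintro ⟨c, hc⟩
  apply hd
  refine IsUnit.of_mul_eq_one c ?_
  apply IsFractionRing.injective A₀ K₁
  rw [map_mul, map_one, hc, mul_inv_cancel₀ hd0]

theorem nr_frobenius_rangeVal (q : ℕ) (φ₁ : K₁ ≃ₐ[ℚ] K₁) (hφ₁ : IsModelFrobenius K₁ A₀ q φ₁)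
    (a : K₁) (ha : a ∈ rangeVal A₀ K₁) :
    (φ₁ : K₁ →+* K₁) a ∈ rangeVal A₀ K₁ ∧
      ((φ₁ : K₁ →+* K₁) a - a ^ q = 0 ∨ ((φ₁ : K₁ →+* K₁) a - a ^ q)⁻¹ ∉ rangeVal A₀ K₁) := by
  obtain ⟨a₀, rfl⟩ := ha
  obtain ⟨b₀, hb₀, hnu⟩ := hφ₁ a₀
  have h1 : (φ₁ : K₁ →+* K₁) (algebraMap A₀ K₁ a₀) = algebraMap A₀ K₁ b₀ := hb₀.symm
  refine ⟨⟨b₀, h1.symm⟩, ?_⟩
  have h2 : (φ₁ : K₁ →+* K₁) (algebraMap A₀ K₁ a₀) - (algebraMap A₀ K₁ a₀) ^ q =
      algebraMap A₀ K₁ (b₀ - a₀ ^ q) := by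
    rw [h1, map_sub, map_pow]
  rw [h2]
  by_cases h0 : algebraMap A₀ K₁ (b₀ - a₀ ^ q) = 0
  · exact Or.inl h0
  · exact Or.inr (nr_inv_not_mem_rangeVal hnu h0)

theorem nr_natCast_inv_not_mem (q : ℕ) (hqA : Irreducible ((q : ℕ) : A₀)) :
    ((q : ℕ) : K₁)⁻¹ ∉ rangeVal A₀ K₁ := by
  have h1 : ((q : ℕ) : K₁) = algebraMap A₀ K₁ ((q : ℕ) : A₀) := by rw [map_natCast]
  rw [h1]
  refine nr_inv_not_mem_rangeVal hqA.not_isUnit ?_
  rw [Ne, map_eq_zero_iff _ (IsFractionRing.injective A₀ K₁)]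
  exact hqA.ne_zero

end Aux


section Main

variable {K₁ : Type} [Field K₁] [Algebra ℚ K₁]
  {A₀ : Type} [CommRing A₀] [IsDomain A₀] [IsDiscreteValuationRing A₀]
  [Algebra A₀ K₁] [IsFractionRing A₀ K₁] (M q : ℕ) [NeZero M] [NeZero q]

/-- The `q`-expansion (the coercion to Laurent series) as a ring homomorphism. -/
def nrCoe (K₁ : Type) [Field K₁] [Algebra ℚ K₁] (N : ℕ) :
    ModelField K₁ N →+* LaurentSeries K₁ where
  toFun := fun x => (x : LaurentSeries K₁)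
  map_one' := rfl
  map_mul' := fun _ _ => rfl
  map_zero' := rfl
  map_add' := fun _ _ => rfl

theorem nrCoe_apply (N : ℕ) (x : ModelField K₁ N) :
    nrCoe K₁ N x = (x : LaurentSeries K₁) := rfl

theorem nr_toRingHom_apply {R A B : Type*} [CommSemiring R] [Semiring A] [Semiring B]
    [Algebra R A] [Algebra R B] (f : A →ₐ[R] B) (x : A) : f.toRingHom x = f x := rfl

theorem nr_toRingEquiv_apply {R A B : Type*} [CommSemiring R] [Semiring A] [Semiring B]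
    [Algebra R A] [Algebra R B] (f : A ≃ₐ[R] B) (x : A) : f.toRingEquiv x = f x := rfl

theorem nr_ss2NormAlong_eq {K F F' : Type*} [Field K] [Field F] [Field F'] [Algebra K F]
    [Algebra K F'] (φ : F →ₐ[K] F') (f : F') :
    ss2NormAlong φ f = (letI : Algebra F F' := φ.toRingHom.toAlgebra; Algebra.norm F f) := rfl

theorem nr_model_heα (y : ModelField K₁ M) :
    nrCoe K₁ (M * q) ((heckeAlphaBar K₁ M q).toRingHom y) = nrCoe K₁ M y := by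
  rw [nr_toRingHom_apply, nrCoe_apply, nrCoe_apply, coe_heckeAlphaBar]

theorem nr_model_heβ (y : ModelField K₁ M) :
    nrCoe K₁ (M * q) ((heckeBetaBar K₁ M q).toRingHom y) = qExpand K₁ q (nrCoe K₁ M y) := by
  rw [nr_toRingHom_apply, nrCoe_apply, nrCoe_apply, coe_heckeBetaBar]

theorem nr_model_hWα (W : ModelField K₁ (M * q) ≃ₐ[K₁] ModelField K₁ (M * q))
    (hWα : ∀ f, W (heckeAlphaBar K₁ M q f) = heckeBetaBar K₁ M q f) (y : ModelField K₁ M) :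
    W.toRingEquiv ((heckeAlphaBar K₁ M q).toRingHom y) = (heckeBetaBar K₁ M q).toRingHom y := by
  rw [nr_toRingHom_apply, nr_toRingHom_apply, nr_toRingEquiv_apply]
  exact hWα y

theorem nr_model_hWβ (W : ModelField K₁ (M * q) ≃ₐ[K₁] ModelField K₁ (M * q))
    (hWβ : ∀ f, W (heckeBetaBar K₁ M q f) = heckeAlphaBar K₁ M q f) (y : ModelField K₁ M) :
    W.toRingEquiv ((heckeBetaBar K₁ M q).toRingHom y) = (heckeAlphaBar K₁ M q).toRingHom y := by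
  rw [nr_toRingHom_apply, nr_toRingHom_apply, nr_toRingEquiv_apply]
  exact hWβ y

theorem nr_model_hj :
    (nrCoe K₁ M (Fermat.Agent.H42.jFull K₁ M)).coeff (-1) = 1 := by
  rw [nrCoe_apply, Fermat.Agent.H42.coe_jFull, coeff_jqModC_neg_one]

theorem nr_model_hnc : ∃ n : ℤ, n ≠ 0 ∧
    ((Fermat.Agent.H42.jFull K₁ M : ModelField K₁ M) : LaurentSeries K₁).coeff n ≠ 0 := by
  refine ⟨-1, by norm_num, ?_⟩
  rw [Fermat.Agent.H42.coe_jFull, coeff_jqModC_neg_one]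
  exact one_ne_zero

theorem nr_model_hσ (φ₁ : K₁ ≃ₐ[ℚ] K₁) (y : ModelField K₁ M) :
    nrCoe K₁ M (modelSigma K₁ M φ₁ y) = coeffMap (φ₁ : K₁ →+* K₁) (nrCoe K₁ M y) := by
  rw [nrCoe_apply, nrCoe_apply]
  rfl

theorem nr_model_hV (N : ℕ) (x : ModelField K₁ N) :
    x ∈ ktV K₁ A₀ N ↔ nrCoe K₁ N x ∈ Fermat.Agent.H66.vGaussRing (rangeVal A₀ K₁) := by
  rw [nrCoe_apply]
  exact mem_ktV_iff K₁ A₀ N x

theorem nr_model_gen [FiniteDimensional ℚ K₁] (hq : q.Prime) (hqM : ¬ q ∣ M)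
    (z : ModelField K₁ (M * q)) :
    ∃ p : Polynomial (ModelField K₁ M), z = p.eval₂ (heckeAlphaBar K₁ M q).toRingHom
      ((heckeBetaBar K₁ M q).toRingHom (Fermat.Agent.H42.jFull K₁ M)) := by
  obtain ⟨p, hp⟩ := Fermat.Agent.H32.SSGen.exists_eval₂_heckeBetaBar K₁ M q hq hqM
    (Fermat.Agent.H42.jFull K₁ M) (nr_model_hnc M) z
  refine ⟨p, ?_⟩
  rw [nr_toRingHom_apply]
  exact hp

theorem nr_model_hWW [FiniteDimensional ℚ K₁] (hq : q.Prime) (hqM : ¬ q ∣ M)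
    (W : ModelField K₁ (M * q) ≃ₐ[K₁] ModelField K₁ (M * q))
    (hW : IsAtkinLehnerModel K₁ M q W) (x : ModelField K₁ (M * q)) :
    W.toRingEquiv (W.toRingEquiv x) = x :=
  nr_invol (heckeAlphaBar K₁ M q).toRingHom (heckeBetaBar K₁ M q).toRingHom W.toRingEquiv
    (nr_model_hWα M q W hW.1) (nr_model_hWβ M q W hW.2) (Fermat.Agent.H42.jFull K₁ M)
    (nr_model_gen M q hq hqM) x

/-- The nonunits of `V_0 = W⁻¹ V_∞`. -/
theorem nr_ktV0_nonunits (W : ModelField K₁ (M * q) ≃ₐ[K₁] ModelField K₁ (M * q))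
    (x : ModelField K₁ (M * q)) :
    x ∈ (ktV0 K₁ A₀ M q W).nonunits ↔ W x ∈ (ktV K₁ A₀ (M * q)).nonunits := by
  rw [nr_mem_nonunits_iff, nr_mem_nonunits_iff, mem_ktV0_iff]
  constructor
  · rintro (rfl | h)
    · exact Or.inl (map_zero W)
    · right
      rw [← map_inv₀]
      exact h
  · rintro (h | h)
    · left
      exact (map_eq_zero_iff W W.injective).mp h
    · right
      rw [← map_inv₀] at h
      exact h

end Main

section Assemble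

variable {K₁ : Type} [Field K₁] [Algebra ℚ K₁] [FiniteDimensional ℚ K₁]
  {A₀ : Type} [CommRing A₀] [IsDomain A₀] [IsDiscreteValuationRing A₀]
  [Algebra A₀ K₁] [IsFractionRing A₀ K₁] (M q : ℕ) [NeZero M] [NeZero q]

/-- (Ra) in the abstract shape (ring homomorphisms `α.toRingHom`, `W.toRingEquiv`). -/
theorem nr_model_Ra (hq : q.Prime) (hqM : ¬ q ∣ M) (hqA : Irreducible ((q : ℕ) : A₀))
    (W : ModelField K₁ (M * q) ≃ₐ[K₁] ModelField K₁ (M * q)) (hW : IsAtkinLehnerModel K₁ M q W)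
    (φ₁ : K₁ ≃ₐ[ℚ] K₁) (hφ₁ : IsModelFrobenius K₁ A₀ q φ₁)
    (z : ModelField K₁ (M * q)) (hz : z ∈ ktV K₁ A₀ (M * q))
    (hWz : W.toRingEquiv z ∈ ktV K₁ A₀ (M * q))
    (y : ModelField K₁ M) (hy : y ∈ ktV K₁ A₀ M)
    (hzy : W.toRingEquiv z - (heckeAlphaBar K₁ M q).toRingHom y ∈
      (ktV K₁ A₀ (M * q)).nonunits) :
    (heckeAlphaBar K₁ M q).toRingHom
        (letI : Algebra (ModelField K₁ M) (ModelField K₁ (M * q)) :=
          (heckeAlphaBar K₁ M q).toRingHom.toAlgebra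
        Algebra.norm (ModelField K₁ M) z)
      - z * (heckeAlphaBar K₁ M q).toRingHom (modelSigma K₁ M φ₁ y) ∈
        (ktV K₁ A₀ (M * q)).nonunits := by
  haveI : Algebra.IsAlgebraic ℚ K₁ := Algebra.IsAlgebraic.of_finite ℚ K₁
  let ι : K₁ →+* AlgebraicClosure ℚ := (IsAlgClosed.lift : K₁ →ₐ[ℚ] AlgebraicClosure ℚ).toRingHom
  obtain ⟨A, hA⟩ := Fermat.Agent.H73.KLDesc.exists_valuationSubring_comap_eq ι (rangeVal A₀ K₁)
  haveI : NeZero ((q : ℕ) : AlgebraicClosure ℚ) := ⟨Nat.cast_ne_zero.mpr hq.ne_zero⟩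
  obtain ⟨ζ₀, hζ₀⟩ := HasEnoughRootsOfUnity.exists_primitiveRoot (AlgebraicClosure ℚ) q
  obtain ⟨ζ, hζ⟩ : ∃ ζ : (AlgebraicClosure ℚ)ˣ, IsPrimitiveRoot (ζ : AlgebraicClosure ℚ) q :=
    ⟨(hζ₀.isUnit hq.ne_zero).unit, by simpa using hζ₀⟩
  obtain ⟨hfin, hdeg⟩ := Fermat.Agent.H32.SSGen.finrankAlong_heckeAlphaBar_le K₁ M q ι hq hqM
  exact nr_core q (heckeAlphaBar K₁ M q).toRingHom (heckeBetaBar K₁ M q).toRingHom
    W.toRingEquiv (nrCoe K₁ M) (nrCoe K₁ (M * q)) ι A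
    (rangeVal A₀ K₁) (ktV K₁ A₀ M) (ktV K₁ A₀ (M * q)) hq
    (nr_model_hWα M q W hW.1) (nr_model_hWβ M q W hW.2)
    (nr_model_heα M q) (nr_model_heβ M q)
    (Fermat.Agent.H42.jFull K₁ M) (nr_model_hj M) ζ hζ hfin hdeg hA
    (nr_natCast_inv_not_mem (K₁ := K₁) q hqA)
    (φ₁ : K₁ →+* K₁) (nr_frobenius_rangeVal q φ₁ hφ₁) (fun y => modelSigma K₁ M φ₁ y)
    (nr_model_hσ M φ₁) (nr_model_hV M) (nr_model_hV (M * q)) z hz hWz y hy hzy

/-- (Rb) in the abstract shape. -/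
theorem nr_model_Rb (hq : q.Prime) (hqM : ¬ q ∣ M) (hqA : Irreducible ((q : ℕ) : A₀))
    (W : ModelField K₁ (M * q) ≃ₐ[K₁] ModelField K₁ (M * q)) (hW : IsAtkinLehnerModel K₁ M q W)
    (φ₁ : K₁ ≃ₐ[ℚ] K₁) (hφ₁ : IsModelFrobenius K₁ A₀ q φ₁)
    (z : ModelField K₁ (M * q)) (hz : z ∈ ktV K₁ A₀ (M * q))
    (hWz : W.toRingEquiv z ∈ ktV K₁ A₀ (M * q))
    (y : ModelField K₁ M) (hy : y ∈ ktV K₁ A₀ M)
    (hzy : z - (heckeAlphaBar K₁ M q).toRingHom y ∈ (ktV K₁ A₀ (M * q)).nonunits) :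
    W.toRingEquiv ((heckeBetaBar K₁ M q).toRingHom
        (letI : Algebra (ModelField K₁ M) (ModelField K₁ (M * q)) :=
          (heckeBetaBar K₁ M q).toRingHom.toAlgebra
        Algebra.norm (ModelField K₁ M) z)
      - z * (heckeBetaBar K₁ M q).toRingHom (modelSigma K₁ M φ₁ y)) ∈
        (ktV K₁ A₀ (M * q)).nonunits := by
  haveI : Algebra.IsAlgebraic ℚ K₁ := Algebra.IsAlgebraic.of_finite ℚ K₁
  let ι : K₁ →+* AlgebraicClosure ℚ := (IsAlgClosed.lift : K₁ →ₐ[ℚ] AlgebraicClosure ℚ).toRingHom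
  obtain ⟨A, hA⟩ := Fermat.Agent.H73.KLDesc.exists_valuationSubring_comap_eq ι (rangeVal A₀ K₁)
  haveI : NeZero ((q : ℕ) : AlgebraicClosure ℚ) := ⟨Nat.cast_ne_zero.mpr hq.ne_zero⟩
  obtain ⟨ζ₀, hζ₀⟩ := HasEnoughRootsOfUnity.exists_primitiveRoot (AlgebraicClosure ℚ) q
  obtain ⟨ζ, hζ⟩ : ∃ ζ : (AlgebraicClosure ℚ)ˣ, IsPrimitiveRoot (ζ : AlgebraicClosure ℚ) q :=
    ⟨(hζ₀.isUnit hq.ne_zero).unit, by simpa using hζ₀⟩
  obtain ⟨hfin, hdeg⟩ := Fermat.Agent.H32.SSGen.finrankAlong_heckeAlphaBar_le K₁ M q ι hq hqM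
  exact nr_core_swap q (heckeAlphaBar K₁ M q).toRingHom (heckeBetaBar K₁ M q).toRingHom
    W.toRingEquiv (nrCoe K₁ M) (nrCoe K₁ (M * q)) ι A
    (rangeVal A₀ K₁) (ktV K₁ A₀ M) (ktV K₁ A₀ (M * q)) hq
    (nr_model_hWα M q W hW.1) (nr_model_hWβ M q W hW.2)
    (nr_model_heα M q) (nr_model_heβ M q)
    (Fermat.Agent.H42.jFull K₁ M) (nr_model_hj M) ζ hζ hfin hdeg hA
    (nr_natCast_inv_not_mem (K₁ := K₁) q hqA)
    (φ₁ : K₁ →+* K₁) (nr_frobenius_rangeVal q φ₁ hφ₁) (fun y => modelSigma K₁ M φ₁ y)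
    (nr_model_hσ M φ₁) (nr_model_hV M) (nr_model_hV (M * q))
    (nr_model_hWW M q hq hqM W hW) z hz hWz y hy hzy

end Assemble

/-- **KT-C2 (NORMRED2)**: the two norm reductions at level `M q`, `q` prime, `q ∤ M`. -/
theorem modelNormRed2 (M q : ℕ) [NeZero M] [NeZero q] (hq : q.Prime) (hqM : ¬ q ∣ M) :
    Fermat.Agent.H55.SS.ModelNormRed2Statement M q := by
  intro K₁ _ _ _ A₀ _ _ _ _ _ hqA W hW φ₁ hφ₁ z hz _ hz0 _
  have hWz : W.toRingEquiv z ∈ ktV K₁ A₀ (M * q) := by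
    rw [nr_toRingEquiv_apply]
    exact (mem_ktV0_iff K₁ A₀ M q W z).mp hz0
  constructor
  · intro y hy hzy
    have hzy' : W.toRingEquiv z - (heckeAlphaBar K₁ M q).toRingHom y ∈
        (ktV K₁ A₀ (M * q)).nonunits := by
      have h1 := (nr_ktV0_nonunits M q W _).mp hzy
      rw [map_sub, hW.2] at h1
      rw [nr_toRingEquiv_apply, nr_toRingHom_apply]
      exact h1
    have h := nr_model_Ra M q hq hqM hqA W hW φ₁ hφ₁ z hz hWz y hy hzy'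
    rw [nr_toRingHom_apply, nr_toRingHom_apply] at h
    rw [nr_ss2NormAlong_eq]
    exact h
  · intro y hy hzy
    have hzy' : z - (heckeAlphaBar K₁ M q).toRingHom y ∈ (ktV K₁ A₀ (M * q)).nonunits := by
      rw [nr_toRingHom_apply]
      exact hzy
    have h := nr_model_Rb M q hq hqM hqA W hW φ₁ hφ₁ z hz hWz y hy hzy'
    rw [nr_toRingEquiv_apply, nr_toRingHom_apply, nr_toRingHom_apply] at h
    rw [nr_ktV0_nonunits, nr_ss2NormAlong_eq]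
    exact h

end Fermat.Agent.H56.SS
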