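import Fermat.Agent.H16.ES1ESNormRed
import Fermat.Agent.H42.ESENormEmb
import Fermat.Agent.H42.ESENormSeries
import Fermat.Agent.H66.ESD.GaussRing

/-!
# P-SS / S35 block (KT), row 972 KT-C2 NORMRED2 : the abstract part (helper56)

Everything here is stated for ABSTRACT fields; the modular instance is `NormRed2.lean`.

* `nr_isGaussRed_sub` : Gauss reductions are additive.
* `nr_norm_red` : if `T(t^p) = Z(t^p) ∏_b Y₂(ζ^b t)` and `Z`, `Y₂` have Gauss reductions `r`, `r₂`
  then `T` has the Gauss reduction `r · Frob(r₂)` (`Frob` = coefficientwise Frobenius).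
* `nr_frob` : the coefficientwise action of a Frobenius lift `φ` of the small field `K`
  (`ι (φ a) ≡ (ι a)^p` modulo `𝔪_A` for `ι a ∈ A`) induces the coefficientwise Frobenius on Gauss
  reductions.
* `nr_transfer`, `nr_exists_red`, `nr_mem_nonunits` : passage between the Gauss ring of
  `B = ι⁻¹ A ⊆ K` and Gauss reductions over `A ⊆ L`.
* `nr_norm_prod` : the norm as a product over the `q + 1` embeddings `τ_∞ = (t ↦ t^q)`,
  `τ_b = (t ↦ ζ^b t) ∘ W`.
* `nr_core` : the norm reduction (Ra) in abstract form.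
-/

set_option autoImplicit false
set_option linter.style.haveILetI false
set_option linter.unusedSectionVars false

noncomputable section

namespace Fermat.Agent.H56.SS

open ModularCurve HahnSeries Fermat.Agent.H16 Fermat.Agent.H27

/-! ## Calculus of Gauss reductions -/

section Calc

variable {L : Type*} [Field L] {A : ValuationSubring L}

theorem nr_isGaussRed_sub {f g : LaurentSeries L}
    {r s : LaurentSeries (IsLocalRing.ResidueField A)}
    (h : IsGaussRed A f r) (h' : IsGaussRed A g s) : IsGaussRed A (f - g) (r - s) := by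
  obtain ⟨a, b, hab, hb, har⟩ := h
  obtain ⟨a', b', hab', hb', har'⟩ := h'
  refine ⟨a * b' - a' * b, b * b', ?_, ?_, ?_⟩
  · rw [map_sub, map_mul, map_mul, map_mul, ← hab, ← hab']
    ring
  · rw [map_mul]
    exact mul_ne_zero hb hb'
  · rw [map_sub, map_mul, map_mul, map_mul, har, har']
    ring

/-- **Reduction of a norm series**, general first factor. -/
theorem nr_norm_red (p : ℕ) [hp : Fact p.Prime] [CharP (IsLocalRing.ResidueField A) p]
    (ζ : Lˣ) (hζ : IsPrimitiveRoot (ζ : L) p) {Z Y₂ T : LaurentSeries L}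
    {r r₂ : LaurentSeries (IsLocalRing.ResidueField A)}
    (hT : haveI : NeZero p := ⟨hp.out.ne_zero⟩
      qExpand L p T = qExpand L p Z * twistProd p ζ Y₂)
    (hZ : IsGaussRed A Z r) (hY : IsGaussRed A Y₂ r₂) :
    IsGaussRed A T (r * coeffMap (frobenius (IsLocalRing.ResidueField A) p) r₂) := by
  haveI : NeZero p := ⟨hp.out.ne_zero⟩
  obtain ⟨T', hT'⟩ : ∃ T' : LaurentSeries L, qExpand L p T' = twistProd p ζ Y₂ :=
    ⟨_, qExpand_qContract_twistProd p ζ hζ Y₂⟩
  have hTZ : T = Z * T' := by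
    apply qExpand_injective (R := L) p
    rw [map_mul, hT, hT']
  have h1 : qExpand L p T' = qExpand L p (qExpand L p 1) * twistProd p ζ Y₂ := by
    rw [map_one, map_one, one_mul, hT']
  obtain ⟨t, ht, htq⟩ := gr_norm_red (A := A) p ζ hζ h1 IsGaussRed.one hY
  rw [map_one, map_one, one_mul] at htq
  have ht' : t = coeffMap (frobenius (IsLocalRing.ResidueField A) p) r₂ := by
    apply qExpand_injective (R := IsLocalRing.ResidueField A) p
    rw [htq]
    exact Fermat.Agent.H42.laurent_pow_char p r₂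
  rw [hTZ, ← ht']
  exact hZ.mul ht

end Calc

/-! ## Nonunits of valuation subrings -/

section Val

/-- Characterisation of the nonunits of a valuation subring. -/
theorem nr_mem_nonunits_iff {E : Type*} [Field E] (U : ValuationSubring E) (x : E) :
    x ∈ U.nonunits ↔ x = 0 ∨ x⁻¹ ∉ U := by
  rw [ValuationSubring.mem_nonunits_iff]
  constructor
  · intro h
    by_cases hx : x = 0
    · exact Or.inl hx
    · right
      intro hinv
      have h1 : U.valuation x⁻¹ ≤ 1 := (U.valuation_le_one_iff _).mpr hinv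
      rw [map_inv₀] at h1
      have hv0 : U.valuation x ≠ 0 := (Valuation.ne_zero_iff _).mpr hx
      have h2 : 1 ≤ U.valuation x := (inv_le_one₀ (zero_lt_iff.mpr hv0)).mp h1
      exact absurd h (not_lt.mpr h2)
  · rintro (rfl | h)
    · rw [map_zero]
      exact zero_lt_one
    · by_contra hcon
      rw [not_lt] at hcon
      apply h
      rw [← ValuationSubring.valuation_le_one_iff, map_inv₀]
      exact inv_le_one_of_one_le₀ hcon

theorem nr_mem_of_mem_nonunits {E : Type*} [Field E] (U : ValuationSubring E) {x : E}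
    (hx : x ∈ U.nonunits) : x ∈ U := by
  rw [ValuationSubring.mem_nonunits_iff] at hx
  exact (U.valuation_le_one_iff _).mp hx.le

/-- Nonunits of a comap along a field automorphism. -/
theorem nr_mem_nonunits_comap {E : Type*} [Field E] (U : ValuationSubring E) (W : E ≃+* E)
    (x : E) : x ∈ (U.comap (W : E →+* E)).nonunits ↔ W x ∈ U.nonunits := by
  rw [nr_mem_nonunits_iff, nr_mem_nonunits_iff, ValuationSubring.mem_comap]
  constructor
  · rintro (rfl | h)
    · exact Or.inl (map_zero W)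
    · right
      rw [← map_inv₀]
      exact h
  · rintro (h | h)
    · left
      exact (map_eq_zero_iff W W.injective).mp h
    · right
      rw [← map_inv₀] at h
      exact h

end Val

/-! ## Integral series over the small field -/

section Small

variable {K L : Type*} [Field K] [Field L] (ι : K →+* L) (A : ValuationSubring L)

/-- A series over `K` whose coefficients land in `A` comes from a series over `A`. -/
theorem nr_exists_integral (x : LaurentSeries K) (hx : ∀ n, ι (x.coeff n) ∈ A) :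
    ∃ xA : LaurentSeries A, coeffMap A.subtype xA = coeffMap ι x := by
  have h := (Fermat.Agent.H66.mem_range_vIota_iff A (coeffMap ι x)).mpr
    (fun m => by rw [coeffMap_coeff]; exact hx m)
  obtain ⟨xA, hxA⟩ := h
  exact ⟨xA, hxA⟩

theorem nr_residue_ne_zero {x : LaurentSeries K} {xA : LaurentSeries A}
    (hxA : coeffMap A.subtype xA = coeffMap ι x) (hu : ∃ n, ι (x.coeff n) ∉ A.nonunits) :
    coeffMap (IsLocalRing.residue A) xA ≠ 0 := by
  obtain ⟨n, hn⟩ := hu
  intro h0
  apply hn
  have h1 : IsLocalRing.residue A (xA.coeff n) = 0 := by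
    rw [← coeffMap_coeff, h0]
    rfl
  rw [IsLocalRing.residue_eq_zero_iff] at h1
  have h2 : ((xA.coeff n : A) : L) = ι (x.coeff n) := by
    have := congrArg (fun s : LaurentSeries L => s.coeff n) hxA
    simpa using this
  rw [← h2, ValuationSubring.coe_mem_nonunits_iff]
  exact h1

/-- Integral data over `K` give a Gauss reduction over `A`. -/
theorem nr_isGaussRed_of_integral {Y a b : LaurentSeries K} {aA bA : LaurentSeries A}
    (haA : coeffMap A.subtype aA = coeffMap ι a) (hbA : coeffMap A.subtype bA = coeffMap ι b)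
    (hbu : ∃ n, ι (b.coeff n) ∉ A.nonunits) (hY : Y * b = a) :
    IsGaussRed A (coeffMap ι Y)
      (coeffMap (IsLocalRing.residue A) aA / coeffMap (IsLocalRing.residue A) bA) := by
  have hb0 := nr_residue_ne_zero ι A hbA hbu
  refine ⟨aA, bA, ?_, hb0, ?_⟩
  · rw [haA, hbA, ← map_mul, hY]
  · rw [div_mul_cancel₀ _ hb0]

variable {ι A}

/-- **Frobenius on Gauss reductions.**  `φ` is a Frobenius lift on `K` relative to `A`. -/
theorem nr_frob (p : ℕ) [hp : Fact p.Prime] [CharP (IsLocalRing.ResidueField A) p]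
    (φ : K →+* K)
    (hφ : ∀ a : K, ι a ∈ A → ι (φ a) ∈ A ∧ ι (φ a) - (ι a) ^ p ∈ A.nonunits)
    {Y a b : LaurentSeries K} (ha : ∀ n, ι (a.coeff n) ∈ A) (hb : ∀ n, ι (b.coeff n) ∈ A)
    (hbu : ∃ n, ι (b.coeff n) ∉ A.nonunits) (hY : Y * b = a)
    {r : LaurentSeries (IsLocalRing.ResidueField A)} (hr : IsGaussRed A (coeffMap ι Y) r) :
    IsGaussRed A (coeffMap ι (coeffMap φ Y))
      (coeffMap (frobenius (IsLocalRing.ResidueField A) p) r) := by
  obtain ⟨aA, haA⟩ := nr_exists_integral ι A a ha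
  obtain ⟨bA, hbA⟩ := nr_exists_integral ι A b hb
  obtain ⟨aA', haA'⟩ := nr_exists_integral ι A (coeffMap φ a)
    (fun n => by rw [coeffMap_coeff]; exact (hφ _ (ha n)).1)
  obtain ⟨bA', hbA'⟩ := nr_exists_integral ι A (coeffMap φ b)
    (fun n => by rw [coeffMap_coeff]; exact (hφ _ (hb n)).1)
  have hb0 := nr_residue_ne_zero ι A hbA hbu
  -- the reduction of `Y`
  have hr' := (nr_isGaussRed_of_integral ι A haA hbA hbu hY).unique hr
  have har : coeffMap (IsLocalRing.residue A) aA = r * coeffMap (IsLocalRing.residue A) bA := by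
    rw [← hr', div_mul_cancel₀ _ hb0]
  -- Frobenius on coefficients
  have key : ∀ (x : LaurentSeries K) (xA xA' : LaurentSeries A),
      (∀ n, ι (x.coeff n) ∈ A) →
      coeffMap A.subtype xA = coeffMap ι x → coeffMap A.subtype xA' = coeffMap ι (coeffMap φ x) →
      coeffMap (IsLocalRing.residue A) xA' =
        coeffMap (frobenius (IsLocalRing.ResidueField A) p)
          (coeffMap (IsLocalRing.residue A) xA) := by
    intro x xA xA' hx hxA hxA'
    ext n
    rw [coeffMap_coeff, coeffMap_coeff, coeffMap_coeff, frobenius_def, ← map_pow,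
      ← sub_eq_zero, ← map_sub, IsLocalRing.residue_eq_zero_iff,
      ← ValuationSubring.coe_mem_nonunits_iff]
    have h1 : ((xA.coeff n : A) : L) = ι (x.coeff n) := by
      have := congrArg (fun s : LaurentSeries L => s.coeff n) hxA
      simpa using this
    have h2 : ((xA'.coeff n : A) : L) = ι (φ (x.coeff n)) := by
      have := congrArg (fun s : LaurentSeries L => s.coeff n) hxA'
      simpa using this
    have h3 : (((xA'.coeff n - xA.coeff n ^ p : A)) : L) = ι (φ (x.coeff n)) - ι (x.coeff n) ^ p := by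
      push_cast
      rw [h1, h2]
    rw [h3]
    exact (hφ _ (hx n)).2
  have ea := key a aA aA' ha haA haA'
  have eb := key b bA bA' hb hbA hbA'
  refine ⟨aA', bA', ?_, ?_, ?_⟩
  · rw [haA', hbA', ← map_mul, ← map_mul, hY]
  · rw [eb]
    intro h0
    apply hb0
    apply Fermat.Agent.H36.coeffMap_frobenius_injective (k := IsLocalRing.ResidueField A) p
    rw [h0, map_zero]
  · rw [ea, eb, har, map_mul]

end Small

/-! ## Transfer between `B = ι⁻¹ A` and `A` -/

section Transfer

variable {K L : Type*} [Field K] [Field L] (ι : K →+* L) (A : ValuationSubring L)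
  (B : ValuationSubring K) (hB : ∀ x : K, ι x ∈ A ↔ x ∈ B)

include hB

/-- Nonunits of `B` map to nonunits of `A`. -/
theorem nr_nonunit_transfer {x : K} (hx : x ∈ B.nonunits) : ι x ∈ A.nonunits := by
  rw [nr_mem_nonunits_iff] at hx ⊢
  rcases hx with rfl | h
  · exact Or.inl (map_zero ι)
  · right
    rw [← map_inv₀, hB]
    exact h

theorem nr_unit_not_mem_nonunits {u : K} (hu' : u⁻¹ ∈ B) (hu0 : u ≠ 0) :
    ι u ∉ A.nonunits := by
  rw [nr_mem_nonunits_iff]
  rintro (h | h)
  · exact hu0 ((map_eq_zero ι).mp h)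
  · apply h
    rw [← map_inv₀, hB]
    exact hu'

/-- The image of a primitive integral series over `B` is primitive over `A`. -/
theorem nr_primitive_transfer {b₀ : LaurentSeries ↥B} (hb₀ : Fermat.Agent.H66.vRho B b₀ ≠ 0) :
    ∃ n, ι ((Fermat.Agent.H66.vIota B b₀).coeff n) ∉ A.nonunits := by
  obtain ⟨m, hm⟩ := (Fermat.Agent.H66.vRho_ne_zero_iff B b₀).mp hb₀
  refine ⟨m, ?_⟩
  rw [Fermat.Agent.H66.vIota_coeff]
  obtain ⟨w, hw⟩ := hm.exists_right_inv
  have hw' : ((b₀.coeff m : B) : K) * (w : K) = 1 := by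
    have := congrArg (fun z : B => (z : K)) hw
    simpa using this
  have hne : ((b₀.coeff m : B) : K) ≠ 0 := left_ne_zero_of_mul_eq_one hw'
  have hinv : ((b₀.coeff m : B) : K)⁻¹ = (w : K) := by
    rw [inv_eq_iff_eq_inv]
    exact eq_inv_of_mul_eq_one_left hw'
  exact nr_unit_not_mem_nonunits ι A B hB (by rw [hinv]; exact w.2) hne

theorem nr_integral_transfer (a₀ : LaurentSeries ↥B) (n : ℤ) :
    ι ((Fermat.Agent.H66.vIota B a₀).coeff n) ∈ A := by
  rw [Fermat.Agent.H66.vIota_coeff]
  exact (hB _).mpr (a₀.coeff n).2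

/-- Elements of the Gauss ring of `B` are quotients of `K`-series which are `A`-integral after
`ι`, with primitive denominator. -/
theorem nr_transfer {X : LaurentSeries K} (hX : X ∈ Fermat.Agent.H66.vGaussRing B) :
    ∃ a b : LaurentSeries K, (∀ n, ι (a.coeff n) ∈ A) ∧ (∀ n, ι (b.coeff n) ∈ A) ∧
      (∃ n, ι (b.coeff n) ∉ A.nonunits) ∧ X * b = a := by
  obtain ⟨a₀, b₀, hb₀, h⟩ := hX
  exact ⟨Fermat.Agent.H66.vIota B a₀, Fermat.Agent.H66.vIota B b₀,
    nr_integral_transfer ι A B hB a₀, nr_integral_transfer ι A B hB b₀,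
    nr_primitive_transfer ι A B hB hb₀, h⟩

/-- Elements of the Gauss ring of `B` have a Gauss reduction over `A`. -/
theorem nr_exists_red {X : LaurentSeries K} (hX : X ∈ Fermat.Agent.H66.vGaussRing B) :
    ∃ r : LaurentSeries (IsLocalRing.ResidueField A), IsGaussRed A (coeffMap ι X) r := by
  obtain ⟨a, b, ha, hb, hbu, hY⟩ := nr_transfer ι A B hB hX
  obtain ⟨aA, haA⟩ := nr_exists_integral ι A a ha
  obtain ⟨bA, hbA⟩ := nr_exists_integral ι A b hb
  exact ⟨_, nr_isGaussRed_of_integral ι A haA hbA hbu hY⟩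

/-- **Descent.**  If `V` is the valuation subring of `E` cut out by the Gauss ring of `B`, an
element whose image has Gauss reduction `0` over `A` is a nonunit of `V`. -/
theorem nr_mem_nonunits {E : Type*} [Field E] (e : E →+* LaurentSeries K)
    (V : ValuationSubring E) (hV : ∀ x : E, x ∈ V ↔ e x ∈ Fermat.Agent.H66.vGaussRing B)
    {X : E} (hX : IsGaussRed A (coeffMap ι (e X)) 0) : X ∈ V.nonunits := by
  rw [nr_mem_nonunits_iff]
  by_cases hX0 : X = 0
  · exact Or.inl hX0
  right
  intro hinv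
  obtain ⟨s, hs⟩ := nr_exists_red ι A B hB ((hV _).mp hinv)
  have h1 := hX.mul hs
  have h2 : coeffMap ι (e X) * coeffMap ι (e X⁻¹) = 1 := by
    rw [← map_mul, ← map_mul, mul_inv_cancel₀ hX0, map_one, map_one]
  rw [h2, zero_mul] at h1
  exact zero_ne_one (h1.unique IsGaussRed.one)

/-- Conversely, a nonunit of `V` has Gauss reduction `0` over `A`. -/
theorem nr_red_zero_of_nonunit {E : Type*} [Field E] (e : E →+* LaurentSeries K)
    (V : ValuationSubring E) (hV : ∀ x : E, x ∈ V ↔ e x ∈ Fermat.Agent.H66.vGaussRing B)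
    {X : E} (hX : X ∈ V.nonunits) : IsGaussRed A (coeffMap ι (e X)) 0 := by
  have hXV : X ∈ V := nr_mem_of_mem_nonunits V hX
  obtain ⟨a₀, b₀, hb₀, h⟩ := (hV X).mp hXV
  have ha₀ : Fermat.Agent.H66.vRho B a₀ = 0 := by
    by_contra hne
    rcases (nr_mem_nonunits_iff V X).mp hX with hX0 | hXinv
    · rw [hX0, map_zero, zero_mul] at h
      exact hne (by rw [(Fermat.Agent.H66.vIota_eq_zero_iff B a₀).mp h.symm, map_zero])
    · apply hXinv
      rw [hV, map_inv₀]
      have ha' := Fermat.Agent.H66.vIota_ne_zero_of_vRho_ne_zero B hne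
      have hb' := Fermat.Agent.H66.vIota_ne_zero_of_vRho_ne_zero B hb₀
      have heX : e X ≠ 0 := by
        intro h0
        rw [h0, zero_mul] at h
        exact ha' h.symm
      refine ⟨b₀, a₀, hne, ?_⟩
      rw [← h]
      field_simp
  obtain ⟨aA, haA⟩ := nr_exists_integral ι A _ (nr_integral_transfer ι A B hB a₀)
  obtain ⟨bA, hbA⟩ := nr_exists_integral ι A _ (nr_integral_transfer ι A B hB b₀)
  have hres := nr_isGaussRed_of_integral ι A haA hbA (nr_primitive_transfer ι A B hB hb₀) h
  have haA0 : coeffMap (IsLocalRing.residue A) aA = 0 := by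
    ext n
    rw [coeffMap_coeff, HahnSeries.coeff_zero, IsLocalRing.residue_eq_zero_iff,
      ← ValuationSubring.coe_mem_nonunits_iff]
    have h2 : ((aA.coeff n : A) : L) = ι ((a₀.coeff n : B) : K) := by
      have := congrArg (fun s : LaurentSeries L => s.coeff n) haA
      simpa using this
    rw [h2]
    apply nr_nonunit_transfer ι A B hB
    rw [ValuationSubring.coe_mem_nonunits_iff, ← IsLocalRing.residue_eq_zero_iff]
    have := congrArg (fun s : LaurentSeries (IsLocalRing.ResidueField B) => s.coeff n) ha₀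
    simpa using this
  rw [haA0, zero_div] at hres
  exact hres

/-- The residue characteristic of `A`. -/
theorem nr_charP (q : ℕ) (hq : q.Prime) (hqB : ((q : ℕ) : K)⁻¹ ∉ B) :
    CharP (IsLocalRing.ResidueField A) q := by
  have hqA : ((q : ℕ) : L) ∈ A.nonunits := by
    have h1 : ((q : ℕ) : K) ∈ B.nonunits := (nr_mem_nonunits_iff B _).mpr (Or.inr hqB)
    have h2 := nr_nonunit_transfer ι A B hB h1
    rwa [map_natCast] at h2
  have hq0 : ((q : ℕ) : IsLocalRing.ResidueField A) = 0 := by
    have hmem : ((q : ℕ) : A) ∈ IsLocalRing.maximalIdeal A := by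
      rw [← ValuationSubring.coe_mem_nonunits_iff]
      push_cast
      exact hqA
    have := (IsLocalRing.residue_eq_zero_iff _).mpr hmem
    rwa [map_natCast] at this
  have hdvd : ringChar (IsLocalRing.ResidueField A) ∣ q :=
    (ringChar.spec (IsLocalRing.ResidueField A) q).mp hq0
  rcases (Nat.dvd_prime hq).mp hdvd with h1 | h1
  · exact absurd h1 (CharP.ringChar_ne_one)
  · exact ringChar.of_eq h1

end Transfer

/-! ## The norm as a product over `q + 1` embeddings -/

section NormProd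

variable {F F' K L : Type*} [Field F] [Field F'] [Field K] [Field L]

/-- The number of distinct embeddings over the base is at most the degree. -/
theorem nr_card_le_finrank [Algebra F F'] [FiniteDimensional F F'] {E ι' : Type*} [Field E]
    [Fintype ι'] (ι₀ : F →+* E) (τ : ι' → (F' →+* E))
    (hτ : ∀ i, (τ i).comp (algebraMap F F') = ι₀) (hinj : Function.Injective τ) :
    Fintype.card ι' ≤ Module.finrank F F' := by
  letI : Algebra F E := ι₀.toAlgebra
  let g : ι' → (F' →ₐ[F] E) := fun i =>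
    { τ i with
      commutes' := fun x => by
        show τ i (algebraMap F F' x) = ι₀ x
        rw [← hτ i]
        rfl }
  have hg : Function.Injective g := by
    intro i j hij
    apply hinj
    ext x
    exact congrArg (fun f : F' →ₐ[F] E => f x) hij
  calc Fintype.card ι' = Nat.card ι' := Nat.card_eq_fintype_card.symm
    _ ≤ Nat.card (F' →ₐ[F] E) := Nat.card_le_card_of_injective g hg
    _ ≤ Module.finrank F F' := card_algHom_le_finrank F F' E

variable (q : ℕ) [NeZero q] (α β : F →+* F') (W : F' ≃+* F')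
  (e' : F →+* LaurentSeries K) (e : F' →+* LaurentSeries K) (ι : K →+* L)

/-- **Product formula for the norm along `α`.**  `F'` has degree at most `q + 1` over `α F`;
`W` exchanges `α` and `β`; on expansions `α` is the identity and `β` is `t ↦ t^q`. -/
theorem nr_norm_prod (hq : q.Prime)
    (hWα : ∀ y, W (α y) = β y) (hWβ : ∀ y, W (β y) = α y)
    (heα : ∀ y, e (α y) = e' y) (heβ : ∀ y, e (β y) = qExpand K q (e' y))
    (j : F) (hj : (e' j).coeff (-1) = 1)
    (ζ : Lˣ) (hζ : IsPrimitiveRoot (ζ : L) q)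
    (hfin : letI := α.toAlgebra; FiniteDimensional F F')
    (hdeg : letI := α.toAlgebra; Module.finrank F F' ≤ q + 1) (z : F') :
    qExpand L q (coeffMap ι (e' (letI := α.toAlgebra; Algebra.norm F z))) =
      qExpand L q (coeffMap ι (e z)) * twistProd q ζ (coeffMap ι (e (W z))) := by
  letI := α.toAlgebra
  haveI := hfin
  have hζ1 : ζ ^ q = 1 := Units.ext (by simpa using hζ.pow_eq_one)
  let c : F' →+* LaurentSeries L := (coeffMap ι).comp e
  let τ : Option (Fin q) → (F' →+* LaurentSeries L) := fun i =>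
    match i with
    | none => (qExpand L q).comp c
    | some b => ((twist (ζ ^ b.1)).comp c).comp (W : F' →+* F')
  let ι₀ : F →+* LaurentSeries L := (qExpand L q).comp ((coeffMap ι).comp e')
  have hcβ : ∀ y, c (β y) = qExpand L q (coeffMap ι (e' y)) := by
    intro y
    show coeffMap ι (e (β y)) = _
    rw [heβ, coeffMap_qExpand]
  have hcα : ∀ y, c (α y) = coeffMap ι (e' y) := by
    intro y
    show coeffMap ι (e (α y)) = _
    rw [heα]
  have hτ : ∀ i, (τ i).comp (algebraMap F F') = ι₀ := by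
    intro i
    refine RingHom.ext fun y => ?_
    rcases i with _ | b
    · show qExpand L q (c (α y)) = qExpand L q (coeffMap ι (e' y))
      rw [hcα]
    · show twist (ζ ^ b.1) (c (W (α y))) = qExpand L q (coeffMap ι (e' y))
      rw [hWα, hcβ]
      apply Fermat.Agent.H42.twist_qExpand_of_pow_eq_one
      rw [← pow_mul, mul_comm, pow_mul, hζ1, one_pow]
  have hq1 : ¬ ((q : ℤ) ∣ (-1 : ℤ)) := by
    intro h
    have h1 : (q : ℤ) ∣ 1 := dvd_neg.mp h
    have h2 : q ∣ 1 := by exact_mod_cast h1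
    exact hq.one_lt.ne' (Nat.dvd_one.mp h2)
  have hvnone : (τ none (β j)).coeff (-1 : ℤ) = 0 := by
    show (qExpand L q (c (β j))).coeff (-1 : ℤ) = 0
    exact qExpand_coeff_of_not_dvd q _ hq1
  have hvsome : ∀ b : Fin q, (τ (some b) (β j)).coeff (-1 : ℤ)
      = (((ζ ^ b.1) ^ (-1 : ℤ) : Lˣ) : L) := by
    intro b
    show (twist (ζ ^ b.1) (c (W (β j)))).coeff (-1 : ℤ) = _
    rw [hWβ, hcα, twist_coeff, coeffMap_coeff, hj, map_one, mul_one]
  have hinj : Function.Injective τ := by
    intro x y hxy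
    have hval := congrArg (fun s : F' →+* LaurentSeries L => (s (β j)).coeff (-1 : ℤ)) hxy
    beta_reduce at hval
    rcases x with _ | b <;> rcases y with _ | b'
    · rfl
    · exfalso
      rw [hvnone, hvsome] at hval
      exact Units.ne_zero _ hval.symm
    · exfalso
      rw [hvnone, hvsome] at hval
      exact Units.ne_zero _ hval
    · rw [hvsome, hvsome] at hval
      have h1 : (ζ ^ (b : ℕ)) ^ (-1 : ℤ) = (ζ ^ (b' : ℕ)) ^ (-1 : ℤ) := Units.ext hval
      have h2 : ζ ^ (b : ℕ) = ζ ^ (b' : ℕ) := by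
        have := congrArg (fun u : Lˣ => u⁻¹) h1
        simpa using this
      have h2' : (ζ : L) ^ (b : ℕ) = (ζ : L) ^ (b' : ℕ) := by
        have := congrArg (fun u : Lˣ => (u : L)) h2
        simpa using this
      have h3 : (b : ℕ) = (b' : ℕ) := hζ.pow_inj b.2 b'.2 h2'
      exact congrArg some (Fin.ext h3)
  have hcard : Fintype.card (Option (Fin q)) = Module.finrank F F' := by
    apply le_antisymm (nr_card_le_finrank ι₀ τ hτ hinj)
    rw [Fintype.card_option, Fintype.card_fin]
    exact hdeg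
  have key := Fermat.Agent.H42.map_norm_eq_prod_of_card_eq (F := F) (F' := F') ι₀ τ hτ hinj
    hcard z
  rw [Fintype.prod_option] at key
  show ι₀ (Algebra.norm F z) = _
  rw [key]
  congr 1
  unfold twistProd
  rw [← Fin.prod_univ_eq_prod_range (fun b => twist (ζ ^ b) (coeffMap ι (e (W z)))) q]
  exact Finset.prod_congr rfl (fun b _ => rfl)

end NormProd


/-! ## The norm reduction -/

section Core

variable {F F' K L : Type*} [Field F] [Field F'] [Field K] [Field L]
variable (q : ℕ) [NeZero q] (α β : F →+* F') (W : F' ≃+* F')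
  (e' : F →+* LaurentSeries K) (e : F' →+* LaurentSeries K) (ι : K →+* L)
  (A : ValuationSubring L) (B : ValuationSubring K)
  (V' : ValuationSubring F) (V : ValuationSubring F')

/-- **(Ra), abstract form.**  `α (N_α z) ≡ z · α (σ y)` modulo `𝔪_V` if `W z ≡ α y` modulo
`𝔪_V`. -/
theorem nr_core (hq : q.Prime)
    (hWα : ∀ y, W (α y) = β y) (hWβ : ∀ y, W (β y) = α y)
    (heα : ∀ y, e (α y) = e' y) (heβ : ∀ y, e (β y) = qExpand K q (e' y))
    (j : F) (hj : (e' j).coeff (-1) = 1)
    (ζ : Lˣ) (hζ : IsPrimitiveRoot (ζ : L) q)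
    (hfin : letI := α.toAlgebra; FiniteDimensional F F')
    (hdeg : letI := α.toAlgebra; Module.finrank F F' ≤ q + 1)
    (hB : ∀ x : K, ι x ∈ A ↔ x ∈ B)
    (hqB : ((q : ℕ) : K)⁻¹ ∉ B)
    (φ : K →+* K) (hφ : ∀ a : K, a ∈ B → φ a ∈ B ∧ (φ a - a ^ q = 0 ∨ (φ a - a ^ q)⁻¹ ∉ B))
    (σ : F → F) (hσ : ∀ y, e' (σ y) = coeffMap φ (e' y))
    (hV' : ∀ y : F, y ∈ V' ↔ e' y ∈ Fermat.Agent.H66.vGaussRing B)
    (hV : ∀ x : F', x ∈ V ↔ e x ∈ Fermat.Agent.H66.vGaussRing B)
    (z : F') (hz : z ∈ V) (hWz : W z ∈ V) (y : F) (hy : y ∈ V')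
    (hzy : W z - α y ∈ V.nonunits) :
    α (letI := α.toAlgebra; Algebra.norm F z) - z * α (σ y) ∈ V.nonunits := by
  haveI : Fact q.Prime := ⟨hq⟩
  haveI : CharP (IsLocalRing.ResidueField A) q := nr_charP ι A B hB q hq hqB
  -- the Frobenius lift relative to `A`
  have hφA : ∀ a : K, ι a ∈ A → ι (φ a) ∈ A ∧ ι (φ a) - (ι a) ^ q ∈ A.nonunits := by
    intro a ha
    obtain ⟨h1, h2⟩ := hφ a ((hB a).mp ha)
    refine ⟨(hB _).mpr h1, ?_⟩
    have h3 : ι (φ a) - (ι a) ^ q = ι (φ a - a ^ q) := by rw [map_sub, map_pow]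
    rw [h3]
    exact nr_nonunit_transfer ι A B hB ((nr_mem_nonunits_iff B _).mpr h2)
  obtain ⟨r, hr⟩ := nr_exists_red ι A B hB ((hV z).mp hz)
  obtain ⟨r₂, hr₂⟩ := nr_exists_red ι A B hB ((hV _).mp hWz)
  have hprod := nr_norm_prod q α β W e' e ι hq hWα hWβ heα heβ j hj ζ hζ hfin hdeg z
  have hN := nr_norm_red (A := A) q ζ hζ hprod hr hr₂
  -- the level `M` function `y`
  obtain ⟨a, b, ha, hb, hbu, hY⟩ := nr_transfer ι A B hB ((hV' y).mp hy)
  obtain ⟨ry, hry⟩ := nr_exists_red ι A B hB ((hV' y).mp hy)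
  have h0 := nr_red_zero_of_nonunit ι A B hB e V hV hzy
  rw [map_sub, heα, map_sub] at h0
  have hry2 : r₂ = ry := sub_eq_zero.mp ((nr_isGaussRed_sub hr₂ hry).unique h0)
  have hF := nr_frob q φ hφA ha hb hbu hY hry
  rw [← hry2] at hF
  -- conclusion
  apply nr_mem_nonunits ι A B hB e V hV
  rw [map_sub, map_mul, heα, heα, hσ, map_sub, map_mul]
  have hfinal := nr_isGaussRed_sub hN (hr.mul hF)
  rwa [sub_self] at hfinal

/-- `W` is an involution if `F'` is generated by `α F` and `β H`. -/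
theorem nr_invol (hWα : ∀ y, W (α y) = β y) (hWβ : ∀ y, W (β y) = α y) (H : F)
    (hgen : ∀ z : F', ∃ p : Polynomial F, z = p.eval₂ α (β H)) (z : F') : W (W z) = z := by
  obtain ⟨p, rfl⟩ := hgen z
  have h1 : ∀ x : F', (W : F' →+* F') ((W : F' →+* F') x) = W (W x) := fun x => rfl
  rw [← h1, Polynomial.hom_eval₂, Polynomial.hom_eval₂]
  have h2 : ((W : F' →+* F').comp ((W : F' →+* F').comp α)) = α := by
    ext y
    show W (W (α y)) = α y
    rw [hWα, hWβ]
  have h3 : (W : F' →+* F') ((W : F' →+* F') (β H)) = β H := by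
    show W (W (β H)) = β H
    rw [hWβ, hWα]
  rw [h2, h3]

/-- Transport of the norm along `W`. -/
theorem nr_norm_swap (hWβ : ∀ y, W (β y) = α y) (z : F') :
    (letI := β.toAlgebra; Algebra.norm F z) = (letI := α.toAlgebra; Algebra.norm F (W z)) := by
  have he : (@algebraMap F F' _ _ α.toAlgebra).comp ((RingEquiv.refl F : F ≃+* F) : F →+* F) =
      ((W : F' ≃+* F') : F' →+* F').comp (@algebraMap F F' _ _ β.toAlgebra) := by
    ext y
    show α y = W (β y)
    rw [hWβ]
  have := @Algebra.norm_eq_of_equiv_equiv F F' F F' _ _ _ _ β.toAlgebra α.toAlgebra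
    (RingEquiv.refl F) W he z
  simpa using this

/-- **(Rb), abstract form**, from (Ra) by the symmetry `W`. -/
theorem nr_core_swap (hq : q.Prime)
    (hWα : ∀ y, W (α y) = β y) (hWβ : ∀ y, W (β y) = α y)
    (heα : ∀ y, e (α y) = e' y) (heβ : ∀ y, e (β y) = qExpand K q (e' y))
    (j : F) (hj : (e' j).coeff (-1) = 1)
    (ζ : Lˣ) (hζ : IsPrimitiveRoot (ζ : L) q)
    (hfin : letI := α.toAlgebra; FiniteDimensional F F')
    (hdeg : letI := α.toAlgebra; Module.finrank F F' ≤ q + 1)
    (hB : ∀ x : K, ι x ∈ A ↔ x ∈ B)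
    (hqB : ((q : ℕ) : K)⁻¹ ∉ B)
    (φ : K →+* K) (hφ : ∀ a : K, a ∈ B → φ a ∈ B ∧ (φ a - a ^ q = 0 ∨ (φ a - a ^ q)⁻¹ ∉ B))
    (σ : F → F) (hσ : ∀ y, e' (σ y) = coeffMap φ (e' y))
    (hV' : ∀ y : F, y ∈ V' ↔ e' y ∈ Fermat.Agent.H66.vGaussRing B)
    (hV : ∀ x : F', x ∈ V ↔ e x ∈ Fermat.Agent.H66.vGaussRing B)
    (hWW : ∀ x, W (W x) = x)
    (z : F') (hz : z ∈ V) (hWz : W z ∈ V) (y : F) (hy : y ∈ V')
    (hzy : z - α y ∈ V.nonunits) :
    W (β (letI := β.toAlgebra; Algebra.norm F z) - z * β (σ y)) ∈ V.nonunits := by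
  rw [map_sub, map_mul, hWβ, hWβ, nr_norm_swap α β W hWβ z]
  refine nr_core q α β W e' e ι A B V' V hq hWα hWβ heα heβ j hj ζ hζ hfin hdeg hB hqB φ hφ σ hσ
    hV' hV (W z) hWz ?_ y hy ?_
  · rw [hWW]
    exact hz
  · rw [hWW]
    exact hzy

end Core

end Fermat.Agent.H56.SS
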